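/-
S25 (Jacobian), package A3 pieces VANISH + RIEMANN in final form (helper1451).
On Deg1451 (Core + A1/Basic + Euler/InvQuot/Coker1451).  No sorry.

* `homTwist φ n : Hom (N'.twist n) (N.twist n)`;
* `exists_twist_range_eq_top`: `H¹(N⟨n⟩) = 0` for `n ≫ 0` (any glued module with f.d. `H¹`);
* `IsCurveChart.riemann`: there is `γ` with `deg N ≥ γ → H¹(N) = 0` for every line bundle `N`.
-/
import Fermat.Agent.S25.Lib.Euler.Deg

set_option autoImplicit false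

universe u

namespace Fermat.Agent.S25.Lib.Euler

open Function

section HomTwist

variable {R : Type u} [CommRing R] {𝔹 : TwoChart R} {N' N : GluedModule 𝔹}

/-- Twisting a morphism. -/
def homTwist (φ : GluedModule.Hom N' N) (n : ℤ) : GluedModule.Hom (N'.twist n) (N.twist n) where
  φ₁ := φ.φ₁
  φ₂ := φ.φ₂
  φ₁₂ := φ.φ₁₂
  comm₁ := φ.comm₁
  comm₂ := fun (x : N'.N₂) => by
    change φ.φ₁₂ (((𝔹.u ^ n : 𝔹.B₁₂ˣ) : 𝔹.B₁₂) • N'.ι₂ x) =
      ((𝔹.u ^ n : 𝔹.B₁₂ˣ) : 𝔹.B₁₂) • N.ι₂ (φ.φ₂ x)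
    rw [map_smul, φ.comm₂]

end HomTwist

section Vanish

variable {κ : Type u} [Field κ] {𝔹 : TwoChart κ}

/-- The range of the Čech differential of `N⟨n⟩`, as a subspace of `N₁₂`. -/
def twistRange (N : GluedModule 𝔹) (n : ℕ) : Submodule κ N.N₁₂ :=
  LinearMap.range (N.twist (n : ℤ)).d

theorem mem_twistRange_iff (N : GluedModule 𝔹) (n : ℕ) (y : N.N₁₂) :
    y ∈ twistRange N n ↔ ∃ (a : N.N₁) (b : N.N₂), y = N.ι₁ a - 𝔹.r₁ 𝔹.f ^ n • N.ι₂ b := by
  constructor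
  · rintro ⟨⟨a, b⟩, rfl⟩
    refine ⟨a, b, ?_⟩
    change N.ι₁ a - ((𝔹.u ^ (n : ℤ) : 𝔹.B₁₂ˣ) : 𝔹.B₁₂) • N.ι₂ b = _
    rw [zpow_natCast, Units.val_pow_eq_pow_val, TwoChart.u_val]
  · rintro ⟨a, b, rfl⟩
    refine ⟨(a, b), ?_⟩
    change N.ι₁ a - ((𝔹.u ^ (n : ℤ) : 𝔹.B₁₂ˣ) : 𝔹.B₁₂) • N.ι₂ b = _
    rw [zpow_natCast, Units.val_pow_eq_pow_val, TwoChart.u_val]

theorem twistRange_mono (N : GluedModule 𝔹) {m n : ℕ} (h : m ≤ n) :
    twistRange N m ≤ twistRange N n := by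
  intro y hy
  rw [mem_twistRange_iff] at hy ⊢
  obtain ⟨a, b, rfl⟩ := hy
  refine ⟨a, 𝔹.g ^ (n - m) • b, ?_⟩
  rw [N.ι₂_smul, ← mul_smul, map_pow]
  congr 2
  obtain ⟨j, rfl⟩ := Nat.exists_eq_add_of_le h
  rw [Nat.add_sub_cancel_left, pow_add, mul_assoc, ← mul_pow, 𝔹.fg, one_pow, mul_one]

theorem exists_mem_twistRange (N : GluedModule 𝔹) (y : N.N₁₂) : ∃ n, y ∈ twistRange N n := by
  obtain ⟨b, n, rfl⟩ := N.surj₂ y
  refine ⟨n, ?_⟩
  rw [mem_twistRange_iff]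
  exact ⟨0, -b, by simp⟩

/-- If `H¹(N)` is finite-dimensional then `H¹(N⟨n⟩) = 0` for all large `n`. -/
theorem exists_twist_range_eq_top (N : GluedModule 𝔹) (hfin : Module.Finite κ N.H1) :
    ∃ n₁ : ℕ, ∀ n : ℕ, n₁ ≤ n → LinearMap.range (N.twist (n : ℤ)).d = ⊤ := by
  have hnoeth : IsNoetherian κ N.H1 := inferInstance
  have h0 : twistRange N 0 = LinearMap.range N.d := by
    ext y
    rw [mem_twistRange_iff]
    constructor
    · rintro ⟨a, b, rfl⟩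
      exact ⟨(a, b), by simp [d_apply]⟩
    · rintro ⟨⟨a, b⟩, rfl⟩
      exact ⟨a, b, by simp [d_apply]⟩
  let F : ℕ →o Submodule κ N.H1 :=
    { toFun := fun n => Submodule.map (LinearMap.range N.d).mkQ (twistRange N n)
      monotone' := fun m n h => Submodule.map_mono (twistRange_mono N h) }
  obtain ⟨n₁, hn₁⟩ := monotone_stabilizes_iff_noetherian.mpr hnoeth F
  refine ⟨n₁, fun n hn => ?_⟩
  have key : twistRange N n₁ = ⊤ := by
    rw [eq_top_iff]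
    intro y _
    obtain ⟨m, hm⟩ := exists_mem_twistRange N y
    have hm' : y ∈ twistRange N (max m n₁) := twistRange_mono N (le_max_left _ _) hm
    have h1 : (LinearMap.range N.d).mkQ y ∈ F (max m n₁) := ⟨y, hm', rfl⟩
    rw [← hn₁ (max m n₁) (le_max_right _ _)] at h1
    obtain ⟨z, hz, hzy⟩ := h1
    have h2 : y - z ∈ LinearMap.range N.d := by
      rw [← Submodule.Quotient.mk_eq_zero, Submodule.Quotient.mk_sub, sub_eq_zero]
      exact hzy.symm
    have h3 : y - z ∈ twistRange N n₁ := by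
      rw [← h0] at h2
      exact twistRange_mono N (Nat.zero_le _) h2
    have := Submodule.add_mem _ h3 hz
    rwa [sub_add_cancel] at this
  exact eq_top_iff.mpr (key ▸ twistRange_mono N hn)

end Vanish

section Riemann

variable {κ : Type u} [Field κ] {𝔹 : TwoChart κ}

namespace IsCurveChart

variable (h𝔹 : IsCurveChart 𝔹)
include h𝔹

/-- A line bundle receiving an injective map from `O⟨n⟩` with `H¹(O⟨n⟩) = 0` and
finite-dimensional chart cokernels has `H¹ = 0`. -/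
theorem gh1_eq_zero_of_section_twist {N : GluedModule 𝔹} (hN : N.IsLineBundle) (n : ℤ)
    (hn : LinearMap.range ((GluedModule.unit 𝔹).twist n).d = ⊤)
    {s : (N.twist (-n)).H0} (hs : s ≠ 0) : gh1 N = 0 := by
  have hM : (N.twist (-n)).IsLineBundle := GluedModule.twist_isLineBundle hN (-n)
  have f₁ := h𝔹.finite_coker_sectionHom₁ hM hs
  have f₂ := h𝔹.finite_coker_sectionHom₂ hM hs
  have i₁ := h𝔹.sectionHom_injective₁ hM hs
  have i₂ := h𝔹.sectionHom_injective₂ hM hs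
  let φ := homTwist (sectionHom (N.twist (-n)) s) n
  have f₁' : Module.Finite κ (((N.twist (-n)).twist n).N₁ ⧸ LinearMap.range φ.φ₁) := f₁
  have f₂' : Module.Finite κ (((N.twist (-n)).twist n).N₂ ⧸ LinearMap.range φ.φ₂) := f₂
  have S := gluedSES_of_injective φ i₁ i₂
  have hO : FinCoh ((GluedModule.unit 𝔹).twist n) :=
    (h𝔹.finCoh_twist_iff (GluedModule.unit_isLineBundle 𝔹) n).mpr h𝔹.finCoh_unit
  have hT : FinCoh (cokerG φ) := finCoh_of_finite (T := cokerG φ)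
  have h1 := S.gh1_le hO hT
  have h2 : gh1 ((GluedModule.unit 𝔹).twist n) = 0 := gh1_eq_zero_of_range_eq_top _ hn
  have h3 : gh1 (cokerG φ) = 0 := gh1_of_finite (T := cokerG φ)
  have e : GluedModule.Iso ((N.twist (-n)).twist n) N := by
    have e1 := GluedModule.twistTwist N (-n) n
    rw [neg_add_cancel] at e1
    exact e1.trans (GluedModule.twistZero N)
  rw [← gh1_congr e]
  omega

/-- **Riemann's theorem** (vanishing form): there is `γ` such that every line bundle of degree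
at least `γ` has `H¹ = 0`. -/
theorem riemann : ∃ γ : ℤ, ∀ N : GluedModule 𝔹, N.IsLineBundle → γ ≤ h𝔹.deg N → gh1 N = 0 := by
  obtain ⟨n₁, hn₁⟩ := exists_twist_range_eq_top (GluedModule.unit 𝔹) h𝔹.finH1
  refine ⟨(n₁ : ℤ) * (h𝔹.n₀ : ℤ) + (h𝔹.genus : ℤ), fun N hN hdeg => ?_⟩
  have hM : (N.twist (-(n₁ : ℤ))).IsLineBundle := GluedModule.twist_isLineBundle hN _
  have hMfin : FinCoh (N.twist (-(n₁ : ℤ))) := h𝔹.finCoh_of_isLineBundle hM
  have h1 := h𝔹.deg_twist hN (-(n₁ : ℤ))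
  have h2 := h𝔹.gh0_sub_gh1 (N.twist (-(n₁ : ℤ)))
  have hpos : 0 < gh0 (N.twist (-(n₁ : ℤ))) := by
    have : (0 : ℤ) < (gh0 (N.twist (-(n₁ : ℤ))) : ℤ) := by
      have h3 : (0 : ℤ) ≤ (gh1 (N.twist (-(n₁ : ℤ))) : ℤ) := Int.natCast_nonneg _
      linarith
    exact_mod_cast this
  have hfin : Module.Finite κ (N.twist (-(n₁ : ℤ))).H0 := hMfin.finite_H0
  have hnt : Nontrivial (N.twist (-(n₁ : ℤ))).H0 := by
    rw [gh0_eq] at hpos
    exact Module.nontrivial_of_finrank_pos (R := κ) hpos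
  obtain ⟨s, hs⟩ := exists_ne (0 : (N.twist (-(n₁ : ℤ))).H0)
  exact h𝔹.gh1_eq_zero_of_section_twist hN (n₁ : ℤ) (hn₁ n₁ le_rfl) hs

end IsCurveChart

end Riemann

end Fermat.Agent.S25.Lib.Euler
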