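/-
S25 LIB, topic Euler (helper1451): bridge from the Euler-characteristic calculus of
`Lib/Euler/{Basic,Coker,Deg,Riemann}` (`gh0`, `gh1`, `gchi`, `FinCoh`, `IsCurveChart`) to the
FROZEN vocabulary of `Defs.lean` (`GluedModule.chi`).  No sorry.

For a two-chart `𝔹` over a field `κ` satisfying `IsCurveChart 𝔹` (instantiated for
`𝒞.chart κ`, `κ` algebraically closed, in `Lib/Euler/Inst.lean`) and line bundles `N`:
* `chi_eq_gchi`, `chi_congr` (iso-invariance), `finite_H0`, `finite_H1`;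
* `chi_twist : chi (N.twist n) = chi N + n * n₀`;
* `chi_eq_deg_add`, `deg_eq_zero_iff` (`deg N = 0 ↔ chi N = chi O`), `chi_unit = 1 - genus`;
* `H0_eq_bot_of_chi_lt`, `isIso_unit_of_section_of_chi_eq`;
* `exists_riemann_bound : ∃ γ, ∀ N line bundle, γ ≤ chi N → Subsingleton N.H1`.
-/
import Fermat.Agent.S25.Defs
import Fermat.Agent.S25.Lib.Euler.Riemann

set_option autoImplicit false

universe u

namespace Fermat.Agent.S25.Lib.Euler

open Function

variable {κ : Type u} [Field κ] {𝔹 : TwoChart κ}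

/-- The frozen Euler characteristic is the `gchi` of this library. -/
theorem chi_eq_gchi (N : GluedModule 𝔹) : GluedModule.chi N = gchi N := rfl

theorem chi_eq_gh0_sub_gh1 (N : GluedModule 𝔹) :
    GluedModule.chi N = (gh0 N : ℤ) - (gh1 N : ℤ) := rfl

/-- The Euler characteristic is an isomorphism invariant. -/
theorem chi_congr {N N' : GluedModule 𝔹} (e : GluedModule.Iso N N') :
    GluedModule.chi N = GluedModule.chi N' :=
  gchi_congr e

theorem finrank_H0_congr {N N' : GluedModule 𝔹} (e : GluedModule.Iso N N') :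
    Module.finrank κ N.H0 = Module.finrank κ N'.H0 :=
  gh0_congr e

theorem finrank_H1_congr {N N' : GluedModule 𝔹} (e : GluedModule.Iso N N') :
    Module.finrank κ N.H1 = Module.finrank κ N'.H1 :=
  gh1_congr e

/-- `gh1 N = 0` means `H¹ = 0` when the cohomology is finite dimensional. -/
theorem subsingleton_H1_of_gh1_eq_zero {N : GluedModule 𝔹} (hf : FinCoh N) (h : gh1 N = 0) :
    Subsingleton N.H1 := by
  have := hf.finite_H1
  exact Module.finrank_zero_iff.mp h

theorem gh1_eq_zero_of_subsingleton_H1 {N : GluedModule 𝔹} [Subsingleton N.H1] : gh1 N = 0 := by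
  rw [gh1_eq]
  exact Module.finrank_zero_of_subsingleton

namespace IsCurveChart

variable (h𝔹 : IsCurveChart 𝔹)

include h𝔹

theorem finite_H0 {N : GluedModule 𝔹} (hN : N.IsLineBundle) : Module.Finite κ N.H0 :=
  (h𝔹.finCoh_of_isLineBundle hN).finite_H0

theorem finite_H1 {N : GluedModule 𝔹} (hN : N.IsLineBundle) : Module.Finite κ N.H1 :=
  (h𝔹.finCoh_of_isLineBundle hN).finite_H1

/-- `χ(N⟨n⟩) = χ(N) + n · n₀`, `n₀ = dim B₂/g`. -/
theorem chi_twist {N : GluedModule 𝔹} (hN : N.IsLineBundle) (n : ℤ) :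
    GluedModule.chi (N.twist n) = GluedModule.chi N + n * (h𝔹.n₀ : ℤ) :=
  h𝔹.gchi_twist hN (h𝔹.finCoh_of_isLineBundle hN) n

theorem chi_eq_deg_add (N : GluedModule 𝔹) :
    GluedModule.chi N = h𝔹.deg N + GluedModule.chi (GluedModule.unit 𝔹) := by
  rw [chi_eq_gchi, chi_eq_gchi]
  unfold deg
  ring

theorem deg_eq_chi_sub (N : GluedModule 𝔹) :
    h𝔹.deg N = GluedModule.chi N - GluedModule.chi (GluedModule.unit 𝔹) := rfl

/-- `deg N = 0` iff `N` has the Euler characteristic of the structure sheaf (the frozen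
`Deg0` condition at a geometric point). -/
theorem deg_eq_zero_iff (N : GluedModule 𝔹) :
    h𝔹.deg N = 0 ↔ GluedModule.chi N = GluedModule.chi (GluedModule.unit 𝔹) := by
  rw [h𝔹.deg_eq_chi_sub, sub_eq_zero]

theorem chi_unit : GluedModule.chi (GluedModule.unit 𝔹) = 1 - (h𝔹.genus : ℤ) :=
  h𝔹.gchi_unit

theorem genus_eq : h𝔹.genus = Module.finrank κ (GluedModule.unit 𝔹).H1 := rfl

theorem finrank_H0_unit : Module.finrank κ (GluedModule.unit 𝔹).H0 = 1 := h𝔹.gh0_unit

/-- A line bundle with `χ(N) < χ(O)` has no nonzero global section. -/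
theorem H0_eq_bot_of_chi_lt {N : GluedModule 𝔹} (hN : N.IsLineBundle)
    (h : GluedModule.chi N < GluedModule.chi (GluedModule.unit 𝔹)) : N.H0 = ⊥ :=
  h𝔹.H0_eq_bot_of_deg_neg hN (by rw [h𝔹.deg_eq_chi_sub]; linarith)

/-- A line bundle with `χ(N) = χ(O)` and a nonzero global section is trivial. -/
theorem isIso_unit_of_section_of_chi_eq {N : GluedModule 𝔹} (hN : N.IsLineBundle)
    {s : N.H0} (hs : s ≠ 0)
    (h : GluedModule.chi N = GluedModule.chi (GluedModule.unit 𝔹)) :
    GluedModule.IsIso (GluedModule.unit 𝔹) N :=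
  h𝔹.isIso_unit_of_section_of_deg_eq_zero hN hs ((h𝔹.deg_eq_zero_iff N).mpr h)

/-- Riemann's theorem in the frozen vocabulary: line bundles of large Euler characteristic
have `H¹ = 0`. -/
theorem exists_riemann_bound :
    ∃ γ : ℤ, ∀ N : GluedModule 𝔹, N.IsLineBundle → γ ≤ GluedModule.chi N →
      Subsingleton N.H1 := by
  obtain ⟨γ, hγ⟩ := h𝔹.riemann
  refine ⟨γ + GluedModule.chi (GluedModule.unit 𝔹), fun N hN h => ?_⟩
  refine subsingleton_H1_of_gh1_eq_zero (h𝔹.finCoh_of_isLineBundle hN) (hγ N hN ?_)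
  rw [h𝔹.deg_eq_chi_sub]
  linarith

end IsCurveChart

end Fermat.Agent.S25.Lib.Euler
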