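/-
S25 LIB, topic Euler (helper1451): INSTANTIATION of the Euler/degree/Riemann calculus of
`Lib/Euler/*` for the FROZEN family chart `𝒞.chart κ` over an algebraically closed field `κ ⊇ k`.

* `H1_finite_of_span` — (F), core form (helper1390's lemma, ported verbatim): `N₁` spanned over
  `R` by `f ^ j • e`, `e` in a finite set, implies `H¹(N)` finitely generated; any base ring.
* `finite_H1_unit_chart` — `H¹(O)` is a finite `R`-module for `𝒞.chart R`, ANY `k`-algebra `R`.
* **`isCurveChart_chart : IsCurveChart (𝒞.chart κ)`** (`k`, `κ` algebraically closed) — on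
  `Lib/Curve/Basic.lean` (helper10: Dedekind domain, finite type, free over `κ[f]`) and
  `Lib/Chart/Facts3648.lean` (helper3648: `H⁰(O) = κ`).
* Consequences in the frozen vocabulary, for line bundles `N` on `𝒞.chart κ`:
  `finite_H0_chart`, `finite_H1_chart`, `chi_twist_chart`, `H0_eq_bot_of_chi_lt_chart`,
  `isIso_unit_of_section_of_chi_eq_chart`, `exists_riemann_bound_chart`.
No sorry.
-/
import Fermat.Agent.S25.Lib.Euler.Chi
import Fermat.Agent.S25.Lib.Curve.Basic
import Fermat.Agent.S25.Lib.Chart.Facts3648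

set_option autoImplicit false

universe u

namespace Fermat.Agent.S25.Lib.Euler

open scoped TensorProduct Polynomial

section F

variable {R : Type u} [CommRing R] {𝔹 : TwoChart R} (N : GluedModule 𝔹)

theorem ι₁_mem_range_d (n : N.N₁) : N.ι₁ n ∈ LinearMap.range N.d :=
  ⟨(n, 0), by simp [GluedModule.d]⟩

theorem ι₂_mem_range_d (n : N.N₂) : N.ι₂ n ∈ LinearMap.range N.d :=
  ⟨(0, -n), by simp [GluedModule.d]⟩

/-- `r₂(g)^m * r₁(f)^j` for `m ≤ j`. -/
theorem g_pow_mul_f_pow_of_le {m j : ℕ} (h : m ≤ j) :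
    𝔹.r₂ 𝔹.g ^ m * 𝔹.r₁ 𝔹.f ^ j = 𝔹.r₁ 𝔹.f ^ (j - m) := by
  obtain ⟨d, rfl⟩ := Nat.exists_eq_add_of_le h
  rw [Nat.add_sub_cancel_left, pow_add, ← mul_assoc, ← mul_pow, mul_comm (𝔹.r₂ 𝔹.g), 𝔹.fg,
    one_pow, one_mul]

/-- `r₂(g)^m * r₁(f)^j` for `j ≤ m`. -/
theorem g_pow_mul_f_pow_of_ge {m j : ℕ} (h : j ≤ m) :
    𝔹.r₂ 𝔹.g ^ m * 𝔹.r₁ 𝔹.f ^ j = 𝔹.r₂ 𝔹.g ^ (m - j) := by
  obtain ⟨d, rfl⟩ := Nat.exists_eq_add_of_le h
  rw [Nat.add_sub_cancel_left, pow_add, mul_comm (𝔹.r₂ 𝔹.g ^ j), mul_assoc, ← mul_pow,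
    mul_comm (𝔹.r₂ 𝔹.g), 𝔹.fg, one_pow, mul_one]

/-- **(F), core form** (helper1390).  If `N₁` is spanned over `R` by the elements `f ^ j • e`,
`e` in a finite set (i.e. `N₁` is finitely generated over `R[f]`), then `H¹(N)` is a finitely
generated `R`-module. -/
theorem H1_finite_of_span (s : Finset N.N₁)
    (hs : Submodule.span R {x : N.N₁ | ∃ j : ℕ, ∃ e ∈ s, x = 𝔹.f ^ j • e} = ⊤) :
    Module.Finite R N.H1 := by
  classical
  have hexp : ∀ e : N.N₁, ∃ m : ℕ, ∃ n₂ : N.N₂, 𝔹.r₂ 𝔹.g ^ m • N.ι₁ e = N.ι₂ n₂ := by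
    intro e
    obtain ⟨n₂, m, h⟩ := N.surj₂ (N.ι₁ e)
    refine ⟨m, n₂, ?_⟩
    rw [h, smul_smul, ← mul_pow, mul_comm, 𝔹.fg, one_pow, one_smul]
  choose mfun nfun hmn using hexp
  let M : ℕ := s.sup mfun
  let G : Finset N.N₁₂ :=
    (s ×ˢ Finset.range M).image (fun p => 𝔹.r₂ 𝔹.g ^ p.2 • N.ι₁ p.1)
  -- key claim
  have key : ∀ n : N.N₁, ∀ m : ℕ,
      𝔹.r₂ 𝔹.g ^ m • N.ι₁ n ∈ Submodule.span R (G : Set N.N₁₂) ⊔ LinearMap.range N.d := by
    intro n
    have hn : n ∈ Submodule.span R {x : N.N₁ | ∃ j : ℕ, ∃ e ∈ s, x = 𝔹.f ^ j • e} := by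
      rw [hs]; trivial
    induction hn using Submodule.span_induction with
    | mem x hx =>
      obtain ⟨j, e, he, rfl⟩ := hx
      intro m
      rw [N.ι₁_smul, map_pow, smul_smul]
      rcases le_or_gt m j with hmj | hmj
      · rw [g_pow_mul_f_pow_of_le hmj, ← map_pow, ← N.ι₁_smul]
        exact Submodule.mem_sup_right (ι₁_mem_range_d N _)
      · rw [g_pow_mul_f_pow_of_ge hmj.le]
        rcases lt_or_ge (m - j) M with hlt | hge
        · refine Submodule.mem_sup_left (Submodule.subset_span ?_)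
          rw [Finset.mem_coe, Finset.mem_image]
          exact ⟨(e, m - j), Finset.mem_product.2 ⟨he, Finset.mem_range.2 hlt⟩, rfl⟩
        · have h1 : mfun e ≤ m - j := (Finset.le_sup he).trans hge
          obtain ⟨d, hd⟩ := Nat.exists_eq_add_of_le h1
          rw [hd, add_comm, pow_add, ← smul_smul, hmn, ← map_pow, ← N.ι₂_smul]
          exact Submodule.mem_sup_right (ι₂_mem_range_d N _)
    | zero =>
      intro m
      rw [map_zero, smul_zero]
      exact Submodule.zero_mem _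
    | add x y _ _ hx hy =>
      intro m
      rw [map_add, smul_add]
      exact Submodule.add_mem _ (hx m) (hy m)
    | smul a x _ hx =>
      intro m
      rw [map_smul, smul_comm]
      exact Submodule.smul_mem _ a (hx m)
  have htop : Submodule.span R (G : Set N.N₁₂) ⊔ LinearMap.range N.d = ⊤ := by
    rw [eq_top_iff]
    intro y _
    obtain ⟨n, m, rfl⟩ := N.surj₁ y
    exact key n m
  have hfin : Module.Finite R (Submodule.span R (G : Set N.N₁₂)) :=
    Module.Finite.span_of_finite R G.finite_toSet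
  refine Module.Finite.of_surjective
    ((LinearMap.range N.d).mkQ.comp (Submodule.span R (G : Set N.N₁₂)).subtype) ?_
  intro z
  obtain ⟨y, rfl⟩ := Submodule.mkQ_surjective _ z
  have hy : y ∈ Submodule.span R (G : Set N.N₁₂) ⊔ LinearMap.range N.d := by
    rw [htop]; trivial
  obtain ⟨a, ha, b, hb, rfl⟩ := Submodule.mem_sup.1 hy
  refine ⟨⟨a, ha⟩, ?_⟩
  simp only [LinearMap.coe_comp, Function.comp_apply, Submodule.subtype_apply, map_add]
  have hb0 : (LinearMap.range N.d).mkQ b = 0 := (Submodule.Quotient.mk_eq_zero _).2 hb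
  rw [hb0, add_zero]

end F

section Chart

variable {k : Type u} [Field k] [IsAlgClosed k] (𝒞 : CurveData k)

/-- `H¹(C_R, O)` is a finitely generated `R`-module, for every `k`-algebra `R`. -/
theorem finite_H1_unit_chart (R : Type u) [CommRing R] [Algebra k R] :
    Module.Finite R (GluedModule.unit (𝒞.chart R)).H1 := by
  classical
  refine H1_finite_of_span (GluedModule.unit (𝒞.chart R))
    (Finset.univ.image (Curve.chartBasis₁ 𝒞 R)) ?_
  rw [eq_top_iff]
  rintro x -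
  obtain ⟨p, rfl⟩ := (Curve.chart_bijective_basis₁ 𝒞 R).2 x
  refine Submodule.sum_mem _ fun i _ => ?_
  rw [Polynomial.aeval_eq_sum_range, Finset.sum_mul]
  refine Submodule.sum_mem _ fun j _ => ?_
  rw [smul_mul_assoc]
  refine Submodule.smul_mem _ _ (Submodule.subset_span ⟨j, Curve.chartBasis₁ 𝒞 R i, ?_, rfl⟩)
  exact Finset.mem_image_of_mem _ (Finset.mem_univ i)

variable (κ : Type u) [Field κ] [Algebra k κ] [IsAlgClosed κ]

/-- The frozen chart `κ ⊗ A₁`, `κ ⊗ A₂`, `κ ⊗ A₁₂` of a curve presentation over an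
algebraically closed field `κ ⊇ k` is a curve chart: all results of `Lib/Euler/*` apply. -/
theorem isCurveChart_chart : IsCurveChart (𝒞.chart κ) where
  dom₁ := Curve.chart_isDomain₁ 𝒞 κ
  dom₂ := Curve.chart_isDomain₂ 𝒞 κ
  inj₁ := Curve.chart_r₁_injective 𝒞 κ
  inj₂ := Curve.chart_r₂_injective 𝒞 κ
  dim₁ := by
    have h := Curve.chart_isDedekindDomain₁ 𝒞 κ
    exact h.toDimensionLEOne
  dim₂ := by
    have h := Curve.chart_isDedekindDomain₂ 𝒞 κ
    exact h.toDimensionLEOne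
  ft₁ := Curve.chart_finiteType₁ 𝒞 κ
  ft₂ := Curve.chart_finiteType₂ 𝒞 κ
  glob := fun a₁ a₂ h => by
    obtain ⟨c, h1, _⟩ := Chart.chart_glob 𝒞 κ a₁ a₂ h
    exact ⟨c, h1⟩
  finH1 := finite_H1_unit_chart 𝒞 κ

variable {κ}

/-- Every line bundle on the curve over an algebraically closed field has finite-dimensional
cohomology. -/
theorem finCoh_chart {N : GluedModule (𝒞.chart κ)} (hN : N.IsLineBundle) : FinCoh N :=
  (isCurveChart_chart 𝒞 κ).finCoh_of_isLineBundle hN

theorem finite_H0_chart {N : GluedModule (𝒞.chart κ)} (hN : N.IsLineBundle) :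
    Module.Finite κ N.H0 :=
  (isCurveChart_chart 𝒞 κ).finite_H0 hN

theorem finite_H1_chart {N : GluedModule (𝒞.chart κ)} (hN : N.IsLineBundle) :
    Module.Finite κ N.H1 :=
  (isCurveChart_chart 𝒞 κ).finite_H1 hN

/-- `χ(N⟨n⟩) = χ(N) + n · n₀`, `n₀ = dim_κ (κ ⊗ A₂)/g`. -/
theorem chi_twist_chart {N : GluedModule (𝒞.chart κ)} (hN : N.IsLineBundle) (n : ℤ) :
    GluedModule.chi (N.twist n) =
      GluedModule.chi N + n * ((isCurveChart_chart 𝒞 κ).n₀ : ℤ) :=
  (isCurveChart_chart 𝒞 κ).chi_twist hN n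

theorem finrank_H0_unit_chart :
    Module.finrank κ (GluedModule.unit (𝒞.chart κ)).H0 = 1 :=
  (isCurveChart_chart 𝒞 κ).finrank_H0_unit

/-- A line bundle with `χ(N) < χ(O)` has no nonzero global section. -/
theorem H0_eq_bot_of_chi_lt_chart {N : GluedModule (𝒞.chart κ)} (hN : N.IsLineBundle)
    (h : GluedModule.chi N < GluedModule.chi (GluedModule.unit (𝒞.chart κ))) : N.H0 = ⊥ :=
  (isCurveChart_chart 𝒞 κ).H0_eq_bot_of_chi_lt hN h

/-- A line bundle with `χ(N) = χ(O)` (the frozen `Deg0` condition) and a nonzero global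
section is trivial. -/
theorem isIso_unit_of_section_of_chi_eq_chart {N : GluedModule (𝒞.chart κ)}
    (hN : N.IsLineBundle) {s : N.H0} (hs : s ≠ 0)
    (h : GluedModule.chi N = GluedModule.chi (GluedModule.unit (𝒞.chart κ))) :
    GluedModule.IsIso (GluedModule.unit (𝒞.chart κ)) N :=
  (isCurveChart_chart 𝒞 κ).isIso_unit_of_section_of_chi_eq hN hs h

variable (κ) in
/-- Riemann's theorem: line bundles of large Euler characteristic have `H¹ = 0`. -/
theorem exists_riemann_bound_chart :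
    ∃ γ : ℤ, ∀ N : GluedModule (𝒞.chart κ), N.IsLineBundle → γ ≤ GluedModule.chi N →
      Subsingleton N.H1 :=
  (isCurveChart_chart 𝒞 κ).exists_riemann_bound

end Chart

end Fermat.Agent.S25.Lib.Euler
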