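/-
S25 (Jacobian), package A3 pieces EULER + GLUED-CHI + TORSION (helper1451).

* `IsFredholm d`, `h0 d`, `h1 d`, `chi d` for a linear map `d : V →ₗ[κ] W` over a field
  (a two-term complex), and the snake-lemma consequences for a short exact sequence of
  two-term complexes (`ComplexSES`): 2-of-3 finiteness, additivity of `chi`, inequalities.
* The same for glued modules over a two-chart over a field (`GluedSES`).
* Torsion glued modules (`N₁`, `N₂` finite-dimensional): restriction maps are surjective,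
  `H¹ = 0`, `dim H⁰ = dim N₁ + dim N₂ - dim N₁₂`, and `H⁰ = 0 → N = 0`.

Imports only Mathlib and `S25/Core.lean` (unchanged).  No sorry.
-/
import Mathlib
import Fermat.Agent.S25.Core

set_option autoImplicit false

universe u

namespace Fermat.Agent.S25.Lib.Euler

open Function

/-! ### Generalities on exact sequences of vector spaces -/

section Generalities

variable {κ : Type*} [Field κ]
variable {A B C : Type*} [AddCommGroup A] [Module κ A] [AddCommGroup B] [Module κ B]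
  [AddCommGroup C] [Module κ C]

/-- The rank of a linear map: dimension of its range. -/
noncomputable def rk (φ : A →ₗ[κ] B) : ℕ := Module.finrank κ (LinearMap.range φ)

/-- The middle term of an exact sequence with finite-dimensional ends is finite-dimensional. -/
theorem finite_of_exact (φ : A →ₗ[κ] B) (ψ : B →ₗ[κ] C) (h : Exact φ ψ)
    [Module.Finite κ A] [Module.Finite κ C] : Module.Finite κ B := by
  have : Module.Finite κ (LinearMap.ker ψ) := by
    rw [h.linearMap_ker_eq]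
    exact Module.Finite.range φ
  have : Module.Finite κ (B ⧸ LinearMap.ker ψ) :=
    Module.Finite.equiv (ψ.quotKerEquivRange).symm
  exact Module.Finite.of_submodule_quotient (LinearMap.ker ψ)

/-- In an exact sequence `A → B → C` with `B` finite-dimensional,
`dim B = rk φ + rk ψ`. -/
theorem finrank_eq_rk_add_rk (φ : A →ₗ[κ] B) (ψ : B →ₗ[κ] C) (h : Exact φ ψ)
    [Module.Finite κ B] : Module.finrank κ B = rk φ + rk ψ := by
  have := LinearMap.finrank_range_add_finrank_ker ψ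
  rw [h.linearMap_ker_eq] at this
  unfold rk
  omega

theorem rk_of_injective (φ : A →ₗ[κ] B) (h : Injective φ) :
    rk φ = Module.finrank κ A :=
  LinearMap.finrank_range_of_inj h

theorem rk_of_surjective (φ : A →ₗ[κ] B) (h : Surjective φ) :
    rk φ = Module.finrank κ B := by
  unfold rk
  rw [LinearMap.range_eq_top.mpr h, finrank_top]

theorem rk_le_left (φ : A →ₗ[κ] B) [Module.Finite κ A] :
    rk φ ≤ Module.finrank κ A := by
  have := LinearMap.finrank_range_add_finrank_ker φ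
  unfold rk
  omega

theorem rk_le_right (φ : A →ₗ[κ] B) [Module.Finite κ B] :
    rk φ ≤ Module.finrank κ B :=
  Submodule.finrank_le _

end Generalities

/-! ### Fredholm maps (two-term complexes with finite-dimensional cohomology) -/

section Fredholm

variable {κ : Type*} [Field κ]
variable {V W : Type*} [AddCommGroup V] [Module κ V] [AddCommGroup W] [Module κ W]

/-- A two-term complex `d : V → W` with finite-dimensional `H⁰ = ker d` and
`H¹ = coker d`. -/
structure IsFredholm (d : V →ₗ[κ] W) : Prop where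
  ker : Module.Finite κ (LinearMap.ker d)
  coker : Module.Finite κ (W ⧸ LinearMap.range d)

/-- `dim ker d`. -/
noncomputable def h0 (d : V →ₗ[κ] W) : ℕ := Module.finrank κ (LinearMap.ker d)

/-- `dim coker d`. -/
noncomputable def h1 (d : V →ₗ[κ] W) : ℕ := Module.finrank κ (W ⧸ LinearMap.range d)

/-- The Euler characteristic `dim ker d - dim coker d`. -/
noncomputable def chi (d : V →ₗ[κ] W) : ℤ := (h0 d : ℤ) - (h1 d : ℤ)

theorem isFredholm_of_finite (d : V →ₗ[κ] W) [Module.Finite κ V] [Module.Finite κ W] :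
    IsFredholm d :=
  ⟨inferInstance, inferInstance⟩

/-- For finite-dimensional `V`, `W`: `chi d = dim V - dim W`. -/
theorem chi_of_finite (d : V →ₗ[κ] W) [Module.Finite κ V] [Module.Finite κ W] :
    chi d = (Module.finrank κ V : ℤ) - (Module.finrank κ W : ℤ) := by
  have h1' := LinearMap.finrank_range_add_finrank_ker d
  have h2' := Submodule.finrank_quotient_add_finrank (LinearMap.range d)
  unfold chi h0 h1
  omega

end Fredholm

/-! ### Short exact sequences of two-term complexes -/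

section SES

variable {κ : Type*} [Field κ]
variable {V' V V'' W' W W'' : Type*}
  [AddCommGroup V'] [Module κ V'] [AddCommGroup V] [Module κ V] [AddCommGroup V''] [Module κ V'']
  [AddCommGroup W'] [Module κ W'] [AddCommGroup W] [Module κ W] [AddCommGroup W''] [Module κ W'']

/-- A short exact sequence `0 → d' → d → d'' → 0` of two-term complexes. -/
structure ComplexSES (d' : V' →ₗ[κ] W') (d : V →ₗ[κ] W) (d'' : V'' →ₗ[κ] W'') where
  i₀ : V' →ₗ[κ] V
  p₀ : V →ₗ[κ] V''
  i₁ : W' →ₗ[κ] W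
  p₁ : W →ₗ[κ] W''
  inj₀ : Injective i₀
  ex₀ : Exact i₀ p₀
  surj₀ : Surjective p₀
  inj₁ : Injective i₁
  ex₁ : Exact i₁ p₁
  surj₁ : Surjective p₁
  comm_i : ∀ x, d (i₀ x) = i₁ (d' x)
  comm_p : ∀ x, d'' (p₀ x) = p₁ (d x)

namespace ComplexSES

variable {d' : V' →ₗ[κ] W'} {d : V →ₗ[κ] W} {d'' : V'' →ₗ[κ] W''}
  (S : ComplexSES d' d d'')

/-- `ker d' → ker d`. -/
def kerI : LinearMap.ker d' →ₗ[κ] LinearMap.ker d :=
  (S.i₀.comp (LinearMap.ker d').subtype).codRestrict (LinearMap.ker d) (fun x => by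
    simp only [LinearMap.mem_ker, LinearMap.comp_apply, Submodule.subtype_apply]
    rw [S.comm_i, x.2, map_zero])

/-- `ker d → ker d''`. -/
def kerP : LinearMap.ker d →ₗ[κ] LinearMap.ker d'' :=
  (S.p₀.comp (LinearMap.ker d).subtype).codRestrict (LinearMap.ker d'') (fun x => by
    simp only [LinearMap.mem_ker, LinearMap.comp_apply, Submodule.subtype_apply]
    rw [S.comm_p, x.2, map_zero])

/-- `coker d' → coker d`. -/
def cokerI : (W' ⧸ LinearMap.range d') →ₗ[κ] (W ⧸ LinearMap.range d) :=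
  (LinearMap.range d').mapQ (LinearMap.range d) S.i₁ (by
    rintro _ ⟨x, rfl⟩
    exact ⟨S.i₀ x, S.comm_i x⟩)

/-- `coker d → coker d''`. -/
def cokerP : (W ⧸ LinearMap.range d) →ₗ[κ] (W'' ⧸ LinearMap.range d'') :=
  (LinearMap.range d).mapQ (LinearMap.range d'') S.p₁ (by
    rintro _ ⟨x, rfl⟩
    exact ⟨S.p₀ x, S.comm_p x⟩)

@[simp] theorem kerI_coe (x : LinearMap.ker d') : (S.kerI x : V) = S.i₀ x := rfl
@[simp] theorem kerP_coe (x : LinearMap.ker d) : (S.kerP x : V'') = S.p₀ x := rfl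
@[simp] theorem cokerI_mk (w : W') :
    S.cokerI (Submodule.Quotient.mk w) = Submodule.Quotient.mk (S.i₁ w) := rfl
@[simp] theorem cokerP_mk (w : W) :
    S.cokerP (Submodule.Quotient.mk w) = Submodule.Quotient.mk (S.p₁ w) := rfl

theorem kerI_injective : Injective S.kerI := by
  intro x y h
  apply Subtype.ext
  apply S.inj₀
  have := congrArg (fun z : LinearMap.ker d => (z : V)) h
  simpa using this

theorem cokerP_surjective : Surjective S.cokerP := by
  intro y
  obtain ⟨w, rfl⟩ := Submodule.Quotient.mk_surjective _ y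
  obtain ⟨v, rfl⟩ := S.surj₁ w
  exact ⟨Submodule.Quotient.mk v, rfl⟩

theorem exact_kerI_kerP : Exact S.kerI S.kerP := by
  intro x
  constructor
  · intro hx
    have hx' : S.p₀ (x : V) = 0 := by
      have := congrArg (fun z : LinearMap.ker d'' => (z : V'')) hx
      simpa using this
    obtain ⟨y, hy⟩ := (S.ex₀ _).mp hx'
    have hy' : d' y = 0 := by
      apply S.inj₁
      rw [← S.comm_i, hy, map_zero]
      exact x.2
    exact ⟨⟨y, hy'⟩, Subtype.ext hy⟩
  · rintro ⟨y, rfl⟩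
    apply Subtype.ext
    simp only [kerP_coe, kerI_coe, ZeroMemClass.coe_zero]
    exact (S.ex₀ _).mpr ⟨_, rfl⟩

theorem exact_cokerI_cokerP : Exact S.cokerI S.cokerP := by
  intro y
  constructor
  · intro hy
    obtain ⟨w, rfl⟩ := Submodule.Quotient.mk_surjective _ y
    rw [cokerP_mk, Submodule.Quotient.mk_eq_zero] at hy
    obtain ⟨v'', hv''⟩ := hy
    obtain ⟨v, rfl⟩ := S.surj₀ v''
    rw [S.comm_p] at hv''
    have : S.p₁ (w - d v) = 0 := by rw [map_sub, hv'', sub_self]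
    obtain ⟨w', hw'⟩ := (S.ex₁ _).mp this
    refine ⟨Submodule.Quotient.mk w', ?_⟩
    rw [cokerI_mk, hw', Submodule.Quotient.mk_sub]
    have : (Submodule.Quotient.mk (d v) : W ⧸ LinearMap.range d) = 0 :=
      (Submodule.Quotient.mk_eq_zero _).mpr ⟨v, rfl⟩
    rw [this, sub_zero]
  · rintro ⟨z, rfl⟩
    obtain ⟨w', rfl⟩ := Submodule.Quotient.mk_surjective _ z
    rw [cokerI_mk, cokerP_mk]
    have : S.p₁ (S.i₁ w') = 0 := (S.ex₁ _).mpr ⟨_, rfl⟩
    rw [this]
    rfl

/-- The connecting homomorphism `ker d'' → coker d'`. -/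
noncomputable def δ : LinearMap.ker d'' →ₗ[κ] (W' ⧸ LinearMap.range d') :=
  SnakeLemma.δ' d' d d'' S.i₀ S.p₀ S.ex₀ S.i₁ S.p₁ S.ex₁
    (LinearMap.ext fun x => (S.comm_i x).symm) (LinearMap.ext fun x => (S.comm_p x).symm)
    (LinearMap.ker d'').subtype (LinearMap.exact_subtype_ker_map d'')
    (LinearMap.range d').mkQ (LinearMap.exact_map_mkQ_range d') S.surj₀ S.inj₁

theorem exact_kerP_δ : Exact S.kerP S.δ :=
  SnakeLemma.exact_δ'_right d' d d'' S.i₀ S.p₀ S.ex₀ S.i₁ S.p₁ S.ex₁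
    (LinearMap.ext fun x => (S.comm_i x).symm) (LinearMap.ext fun x => (S.comm_p x).symm)
    (LinearMap.ker d).subtype (LinearMap.exact_subtype_ker_map d)
    (LinearMap.ker d'').subtype (LinearMap.exact_subtype_ker_map d'')
    (LinearMap.range d').mkQ (LinearMap.exact_map_mkQ_range d') S.surj₀ S.inj₁
    S.kerP (LinearMap.ext fun _ => rfl) (Submodule.injective_subtype _)

theorem exact_δ_cokerI : Exact S.δ S.cokerI :=
  SnakeLemma.exact_δ'_left d' d d'' S.i₀ S.p₀ S.ex₀ S.i₁ S.p₁ S.ex₁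
    (LinearMap.ext fun x => (S.comm_i x).symm) (LinearMap.ext fun x => (S.comm_p x).symm)
    (LinearMap.ker d'').subtype (LinearMap.exact_subtype_ker_map d'')
    (LinearMap.range d').mkQ (LinearMap.exact_map_mkQ_range d')
    (LinearMap.range d).mkQ (LinearMap.exact_map_mkQ_range d) S.surj₀ S.inj₁
    S.cokerI (LinearMap.ext fun _ => rfl) (Submodule.mkQ_surjective _)

include S

/-- 2-of-3: the middle complex is Fredholm if the outer ones are. -/
theorem isFredholm_mid (h' : IsFredholm d') (h'' : IsFredholm d'') : IsFredholm d := by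
  have := h'.ker; have := h'.coker; have := h''.ker; have := h''.coker
  exact ⟨finite_of_exact _ _ S.exact_kerI_kerP, finite_of_exact _ _ S.exact_cokerI_cokerP⟩

/-- 2-of-3: the sub complex is Fredholm if the other two are. -/
theorem isFredholm_left (h : IsFredholm d) (h'' : IsFredholm d'') : IsFredholm d' := by
  have := h.ker; have := h.coker; have := h''.ker; have := h''.coker
  exact ⟨Module.Finite.of_injective S.kerI S.kerI_injective,
    finite_of_exact _ _ S.exact_δ_cokerI⟩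

/-- 2-of-3: the quotient complex is Fredholm if the other two are. -/
theorem isFredholm_right (h' : IsFredholm d') (h : IsFredholm d) : IsFredholm d'' := by
  have := h.ker; have := h.coker; have := h'.ker; have := h'.coker
  exact ⟨finite_of_exact _ _ S.exact_kerP_δ,
    Module.Finite.of_surjective S.cokerP S.cokerP_surjective⟩

/-- The numerical content of the six-term exact sequence. -/
theorem numerics (h' : IsFredholm d') (h'' : IsFredholm d'') :
    ∃ r s t : ℕ, h0 d = h0 d' + r ∧ h0 d'' = r + s ∧ h1 d' = s + t ∧ h1 d = t + h1 d'' := by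
  have h := S.isFredholm_mid h' h''
  have := h'.ker; have := h'.coker; have := h''.ker; have := h''.coker
  have := h.ker; have := h.coker
  refine ⟨rk S.kerP, rk S.δ, rk S.cokerI, ?_, ?_, ?_, ?_⟩
  · have := finrank_eq_rk_add_rk _ _ S.exact_kerI_kerP
    rw [rk_of_injective _ S.kerI_injective] at this
    exact this
  · exact finrank_eq_rk_add_rk _ _ S.exact_kerP_δ
  · exact finrank_eq_rk_add_rk _ _ S.exact_δ_cokerI
  · have := finrank_eq_rk_add_rk _ _ S.exact_cokerI_cokerP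
    rw [rk_of_surjective _ S.cokerP_surjective] at this
    exact this

/-- Additivity of the Euler characteristic. -/
theorem chi_eq (h' : IsFredholm d') (h'' : IsFredholm d'') : chi d = chi d' + chi d'' := by
  obtain ⟨r, s, t, e1, e2, e3, e4⟩ := S.numerics h' h''
  unfold chi
  omega

theorem h0_left_le (h' : IsFredholm d') (h'' : IsFredholm d'') : h0 d' ≤ h0 d := by
  obtain ⟨r, s, t, e1, e2, e3, e4⟩ := S.numerics h' h''
  omega

theorem h0_le (h' : IsFredholm d') (h'' : IsFredholm d'') : h0 d ≤ h0 d' + h0 d'' := by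
  obtain ⟨r, s, t, e1, e2, e3, e4⟩ := S.numerics h' h''
  omega

theorem h1_right_le (h' : IsFredholm d') (h'' : IsFredholm d'') : h1 d'' ≤ h1 d := by
  obtain ⟨r, s, t, e1, e2, e3, e4⟩ := S.numerics h' h''
  omega

theorem h1_le (h' : IsFredholm d') (h'' : IsFredholm d'') : h1 d ≤ h1 d' + h1 d'' := by
  obtain ⟨r, s, t, e1, e2, e3, e4⟩ := S.numerics h' h''
  omega

/-- If the quotient complex has `h¹ = 0` (e.g. a skyscraper), then `h¹` can only drop, and
by at most `h⁰` of the quotient. -/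
theorem h1_le_of_h1_right_eq_zero (h' : IsFredholm d') (h'' : IsFredholm d'')
    (hz : h1 d'' = 0) : h1 d ≤ h1 d' ∧ h1 d' ≤ h1 d + h0 d'' := by
  obtain ⟨r, s, t, e1, e2, e3, e4⟩ := S.numerics h' h''
  omega

/-- The dichotomy for a quotient complex with `h⁰ = 1`, `h¹ = 0` (adding a point):
either `h⁰` goes up by one and `h¹` is unchanged, or `h⁰` is unchanged and `h¹` drops
by one. -/
theorem point_dichotomy (h' : IsFredholm d') (h'' : IsFredholm d'')
    (hz0 : h0 d'' = 1) (hz1 : h1 d'' = 0) :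
    (h0 d = h0 d' + 1 ∧ h1 d = h1 d') ∨ (h0 d = h0 d' ∧ h1 d + 1 = h1 d') := by
  obtain ⟨r, s, t, e1, e2, e3, e4⟩ := S.numerics h' h''
  omega

end ComplexSES

end SES

/-! ### Glued modules over a two-chart over a field -/

section Glued

variable {κ : Type u} [Field κ] {𝔹 : TwoChart κ}

theorem d_apply (N : GluedModule 𝔹) (a : N.N₁) (b : N.N₂) : N.d (a, b) = N.ι₁ a - N.ι₂ b := rfl

/-- A glued module has finite-dimensional cohomology. -/
def FinCoh (N : GluedModule 𝔹) : Prop := IsFredholm N.d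

/-- `dim H⁰`. -/
noncomputable def gh0 (N : GluedModule 𝔹) : ℕ := h0 N.d

/-- `dim H¹`. -/
noncomputable def gh1 (N : GluedModule 𝔹) : ℕ := h1 N.d

/-- The Euler characteristic `dim H⁰ - dim H¹`. -/
noncomputable def gchi (N : GluedModule 𝔹) : ℤ := chi N.d

theorem gh0_eq (N : GluedModule 𝔹) : gh0 N = Module.finrank κ N.H0 := rfl

theorem gh1_eq (N : GluedModule 𝔹) : gh1 N = Module.finrank κ N.H1 := rfl

theorem gchi_eq (N : GluedModule 𝔹) : gchi N = (gh0 N : ℤ) - (gh1 N : ℤ) := rfl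

theorem FinCoh.finite_H0 {N : GluedModule 𝔹} (h : FinCoh N) : Module.Finite κ N.H0 := h.ker

theorem FinCoh.finite_H1 {N : GluedModule 𝔹} (h : FinCoh N) : Module.Finite κ N.H1 := h.coker

theorem finCoh_iff (N : GluedModule 𝔹) :
    FinCoh N ↔ Module.Finite κ N.H0 ∧ Module.Finite κ N.H1 :=
  ⟨fun h => ⟨h.ker, h.coker⟩, fun h => ⟨h.1, h.2⟩⟩

/-- A chart-wise short exact sequence of glued modules, given by bare `κ`-linear maps
commuting with the restriction maps. -/
structure GluedSES (N' N N'' : GluedModule 𝔹) where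
  φ₁ : N'.N₁ →ₗ[κ] N.N₁
  φ₂ : N'.N₂ →ₗ[κ] N.N₂
  φ₁₂ : N'.N₁₂ →ₗ[κ] N.N₁₂
  ψ₁ : N.N₁ →ₗ[κ] N''.N₁
  ψ₂ : N.N₂ →ₗ[κ] N''.N₂
  ψ₁₂ : N.N₁₂ →ₗ[κ] N''.N₁₂
  inj₁ : Injective φ₁
  inj₂ : Injective φ₂
  inj₁₂ : Injective φ₁₂
  ex₁ : Exact φ₁ ψ₁
  ex₂ : Exact φ₂ ψ₂
  ex₁₂ : Exact φ₁₂ ψ₁₂
  surj₁ : Surjective ψ₁
  surj₂ : Surjective ψ₂
  surj₁₂ : Surjective ψ₁₂
  φ_comm₁ : ∀ n, φ₁₂ (N'.ι₁ n) = N.ι₁ (φ₁ n)
  φ_comm₂ : ∀ n, φ₁₂ (N'.ι₂ n) = N.ι₂ (φ₂ n)
  ψ_comm₁ : ∀ n, ψ₁₂ (N.ι₁ n) = N''.ι₁ (ψ₁ n)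
  ψ_comm₂ : ∀ n, ψ₁₂ (N.ι₂ n) = N''.ι₂ (ψ₂ n)

namespace GluedSES

variable {N' N N'' : GluedModule 𝔹} (S : GluedSES N' N N'')

/-- The short exact sequence of Čech complexes. -/
def toComplexSES : ComplexSES N'.d N.d N''.d where
  i₀ := S.φ₁.prodMap S.φ₂
  p₀ := S.ψ₁.prodMap S.ψ₂
  i₁ := S.φ₁₂
  p₁ := S.ψ₁₂
  inj₀ := by
    rintro ⟨a, b⟩ ⟨a', b'⟩ h
    simp only [LinearMap.prodMap_apply, Prod.mk.injEq] at h
    rw [S.inj₁ h.1, S.inj₂ h.2]
  ex₀ := by
    rintro ⟨a, b⟩
    constructor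
    · intro h
      simp only [LinearMap.prodMap_apply, Prod.mk_eq_zero] at h
      obtain ⟨a', ha'⟩ := (S.ex₁ a).mp h.1
      obtain ⟨b', hb'⟩ := (S.ex₂ b).mp h.2
      exact ⟨(a', b'), by simp [ha', hb']⟩
    · rintro ⟨⟨a', b'⟩, h⟩
      simp only [LinearMap.prodMap_apply, Prod.mk.injEq] at h
      simp only [LinearMap.prodMap_apply, Prod.mk_eq_zero]
      exact ⟨(S.ex₁ a).mpr ⟨a', h.1⟩, (S.ex₂ b).mpr ⟨b', h.2⟩⟩
  surj₀ := by
    rintro ⟨a, b⟩
    obtain ⟨a', rfl⟩ := S.surj₁ a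
    obtain ⟨b', rfl⟩ := S.surj₂ b
    exact ⟨(a', b'), rfl⟩
  inj₁ := S.inj₁₂
  ex₁ := S.ex₁₂
  surj₁ := S.surj₁₂
  comm_i := by
    rintro ⟨a, b⟩
    simp only [LinearMap.prodMap_apply, d_apply, map_sub, S.φ_comm₁, S.φ_comm₂]
  comm_p := by
    rintro ⟨a, b⟩
    simp only [LinearMap.prodMap_apply, d_apply, map_sub, S.ψ_comm₁, S.ψ_comm₂]

include S

theorem finCoh_mid (h' : FinCoh N') (h'' : FinCoh N'') : FinCoh N :=
  S.toComplexSES.isFredholm_mid h' h''

theorem finCoh_left (h : FinCoh N) (h'' : FinCoh N'') : FinCoh N' :=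
  S.toComplexSES.isFredholm_left h h''

theorem finCoh_right (h' : FinCoh N') (h : FinCoh N) : FinCoh N'' :=
  S.toComplexSES.isFredholm_right h' h

/-- Additivity of the Euler characteristic in short exact sequences of glued modules. -/
theorem gchi_eq (h' : FinCoh N') (h'' : FinCoh N'') : gchi N = gchi N' + gchi N'' :=
  S.toComplexSES.chi_eq h' h''

theorem numerics (h' : FinCoh N') (h'' : FinCoh N'') :
    ∃ r s t : ℕ, gh0 N = gh0 N' + r ∧ gh0 N'' = r + s ∧ gh1 N' = s + t ∧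
      gh1 N = t + gh1 N'' :=
  S.toComplexSES.numerics h' h''

theorem gh0_left_le (h' : FinCoh N') (h'' : FinCoh N'') : gh0 N' ≤ gh0 N :=
  S.toComplexSES.h0_left_le h' h''

theorem gh0_le (h' : FinCoh N') (h'' : FinCoh N'') : gh0 N ≤ gh0 N' + gh0 N'' :=
  S.toComplexSES.h0_le h' h''

theorem gh1_right_le (h' : FinCoh N') (h'' : FinCoh N'') : gh1 N'' ≤ gh1 N :=
  S.toComplexSES.h1_right_le h' h''

theorem gh1_le (h' : FinCoh N') (h'' : FinCoh N'') : gh1 N ≤ gh1 N' + gh1 N'' :=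
  S.toComplexSES.h1_le h' h''

theorem point_dichotomy (h' : FinCoh N') (h'' : FinCoh N'')
    (hz0 : gh0 N'' = 1) (hz1 : gh1 N'' = 0) :
    (gh0 N = gh0 N' + 1 ∧ gh1 N = gh1 N') ∨ (gh0 N = gh0 N' ∧ gh1 N + 1 = gh1 N') :=
  S.toComplexSES.point_dichotomy h' h'' hz0 hz1

end GluedSES

/-! ### Torsion glued modules -/

/-- Localisation of a finite-dimensional module at an element is surjective (Fitting). -/
theorem exists_eq_of_finite {B B' M M' : Type*} [CommRing B] [CommRing B']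
    [AddCommGroup M] [Module κ M] [Module B M] [SMulCommClass B κ M] [Module.Finite κ M]
    [AddCommGroup M'] [Module B' M']
    (r : B →+* B') (f : B) (g' : B') (hfg : r f * g' = 1)
    (ι : M → M') (hι : ∀ (b : B) (n : M), ι (b • n) = r b • ι n) (n : M) (m : ℕ) :
    ∃ n' : M, ι n' = g' ^ m • ι n := by
  let F : Module.End κ M :=
    { toFun := fun x => f • x
      map_add' := smul_add f
      map_smul' := fun c x => smul_comm f c x }
  have hF : ∀ (j : ℕ) (x : M), (F ^ j) x = f ^ j • x := by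
    intro j
    induction j with
    | zero => intro x; simp
    | succ j ih =>
      intro x
      rw [pow_succ, Module.End.mul_apply, ih, pow_succ, mul_smul]
      rfl
  obtain ⟨a, ha⟩ := Filter.eventually_atTop.mp (LinearMap.eventually_iInf_range_pow_eq F)
  have h1 : LinearMap.range (F ^ a) = LinearMap.range (F ^ (a + m)) := by
    rw [← ha a le_rfl, ← ha (a + m) (Nat.le_add_right a m)]
  have h2 : (F ^ a) n ∈ LinearMap.range (F ^ (a + m)) := by
    rw [← h1]; exact ⟨n, rfl⟩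
  obtain ⟨n', hn'⟩ := h2
  rw [hF, hF] at hn'
  refine ⟨n', ?_⟩
  have h3 := congrArg ι hn'
  rw [hι, hι, map_pow, map_pow] at h3
  have h4 : g' ^ (a + m) * r f ^ (a + m) = 1 := by
    rw [← mul_pow, mul_comm, hfg, one_pow]
  have h5 : g' ^ (a + m) * r f ^ a = g' ^ m := by
    rw [pow_add, mul_assoc, mul_comm (g' ^ m), ← mul_assoc, ← mul_pow, mul_comm g', hfg,
      one_pow, one_mul]
  calc ι n' = (g' ^ (a + m) * r f ^ (a + m)) • ι n' := by rw [h4, one_smul]
    _ = g' ^ (a + m) • (r f ^ (a + m) • ι n') := mul_smul _ _ _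
    _ = g' ^ (a + m) • (r f ^ a • ι n) := by rw [h3]
    _ = (g' ^ (a + m) * r f ^ a) • ι n := (mul_smul _ _ _).symm
    _ = g' ^ m • ι n := by rw [h5]

/-- For a glued module with finite-dimensional `N₁`, the restriction `ι₁` is surjective. -/
theorem ι₁_surjective_of_finite (T : GluedModule 𝔹) [Module.Finite κ T.N₁] :
    Surjective T.ι₁ := by
  intro y
  obtain ⟨n, m, rfl⟩ := T.surj₁ y
  exact exists_eq_of_finite (κ := κ) (𝔹.r₁ : 𝔹.B₁ →+* 𝔹.B₁₂) 𝔹.f (𝔹.r₂ 𝔹.g) 𝔹.fg
    T.ι₁ T.ι₁_smul n m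

/-- For a glued module with finite-dimensional `N₂`, the restriction `ι₂` is surjective. -/
theorem ι₂_surjective_of_finite (T : GluedModule 𝔹) [Module.Finite κ T.N₂] :
    Surjective T.ι₂ := by
  intro y
  obtain ⟨n, m, rfl⟩ := T.surj₂ y
  exact exists_eq_of_finite (κ := κ) (𝔹.r₂ : 𝔹.B₂ →+* 𝔹.B₁₂) 𝔹.g (𝔹.r₁ 𝔹.f)
    (by rw [mul_comm]; exact 𝔹.fg) T.ι₂ T.ι₂_smul n m

theorem range_d_eq_top_of_surjective₁ (T : GluedModule 𝔹) (h : Surjective T.ι₁) :
    LinearMap.range T.d = ⊤ := by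
  rw [LinearMap.range_eq_top]
  intro y
  obtain ⟨n, rfl⟩ := h y
  exact ⟨(n, 0), by simp [d_apply]⟩

theorem range_d_eq_top_of_surjective₂ (T : GluedModule 𝔹) (h : Surjective T.ι₂) :
    LinearMap.range T.d = ⊤ := by
  rw [LinearMap.range_eq_top]
  intro y
  obtain ⟨n, rfl⟩ := h y
  exact ⟨(0, -n), by simp [d_apply]⟩

/-- `H¹ = 0` as soon as one of the restriction maps is surjective. -/
theorem subsingleton_H1_of_range_eq_top (T : GluedModule 𝔹) (h : LinearMap.range T.d = ⊤) :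
    Subsingleton T.H1 :=
  Submodule.Quotient.subsingleton_iff.mpr h

theorem gh1_eq_zero_of_range_eq_top (T : GluedModule 𝔹) (h : LinearMap.range T.d = ⊤) :
    gh1 T = 0 := by
  have := subsingleton_H1_of_range_eq_top T h
  exact Module.finrank_zero_of_subsingleton

/-- Torsion glued modules: `H¹ = 0`. -/
theorem subsingleton_H1_of_finite (T : GluedModule 𝔹) [Module.Finite κ T.N₁] :
    Subsingleton T.H1 :=
  subsingleton_H1_of_range_eq_top T
    (range_d_eq_top_of_surjective₁ T (ι₁_surjective_of_finite T))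

theorem finite_N₁₂_of_finite (T : GluedModule 𝔹) [Module.Finite κ T.N₁] :
    Module.Finite κ T.N₁₂ :=
  Module.Finite.of_surjective T.ι₁ (ι₁_surjective_of_finite T)

/-- Torsion glued modules have finite-dimensional cohomology. -/
theorem finCoh_of_finite (T : GluedModule 𝔹) [Module.Finite κ T.N₁] [Module.Finite κ T.N₂] :
    FinCoh T := by
  have := finite_N₁₂_of_finite T
  exact isFredholm_of_finite T.d

theorem gh1_of_finite (T : GluedModule 𝔹) [Module.Finite κ T.N₁] : gh1 T = 0 :=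
  gh1_eq_zero_of_range_eq_top T (range_d_eq_top_of_surjective₁ T (ι₁_surjective_of_finite T))

/-- Torsion glued modules: `χ = dim N₁ + dim N₂ - dim N₁₂`. -/
theorem gchi_of_finite (T : GluedModule 𝔹) [Module.Finite κ T.N₁] [Module.Finite κ T.N₂] :
    gchi T = (Module.finrank κ T.N₁ : ℤ) + (Module.finrank κ T.N₂ : ℤ)
      - (Module.finrank κ T.N₁₂ : ℤ) := by
  have := finite_N₁₂_of_finite T
  have h := chi_of_finite T.d
  rw [Module.finrank_prod] at h
  unfold gchi
  rw [h]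
  push_cast
  ring

/-- Torsion glued modules: `dim H⁰ = dim N₁ + dim N₂ - dim N₁₂`. -/
theorem gh0_of_finite (T : GluedModule 𝔹) [Module.Finite κ T.N₁] [Module.Finite κ T.N₂] :
    (gh0 T : ℤ) = (Module.finrank κ T.N₁ : ℤ) + (Module.finrank κ T.N₂ : ℤ)
      - (Module.finrank κ T.N₁₂ : ℤ) := by
  have h := gchi_of_finite T
  rw [gchi_eq, gh1_of_finite T] at h
  simpa using h

/-- A torsion glued module without global sections is zero. -/
theorem subsingleton_of_H0_eq_bot (T : GluedModule 𝔹) [Module.Finite κ T.N₁]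
    [Module.Finite κ T.N₂] (h : T.H0 = ⊥) :
    Subsingleton T.N₁ ∧ Subsingleton T.N₂ ∧ Subsingleton T.N₁₂ := by
  have s₁ := ι₁_surjective_of_finite T
  have s₂ := ι₂_surjective_of_finite T
  have z₁ : ∀ n : T.N₁, n = 0 := by
    intro n
    obtain ⟨n₂, hn₂⟩ := s₂ (T.ι₁ n)
    have hmem : ((n, n₂) : T.N₁ × T.N₂) ∈ T.H0 := by
      show T.d (n, n₂) = 0
      rw [d_apply, hn₂, sub_self]
    rw [h, Submodule.mem_bot, Prod.mk_eq_zero] at hmem
    exact hmem.1
  have z₂ : ∀ n : T.N₂, n = 0 := by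
    intro n
    obtain ⟨n₁, hn₁⟩ := s₁ (T.ι₂ n)
    have hmem : ((n₁, n) : T.N₁ × T.N₂) ∈ T.H0 := by
      show T.d (n₁, n) = 0
      rw [d_apply, hn₁, sub_self]
    rw [h, Submodule.mem_bot, Prod.mk_eq_zero] at hmem
    exact hmem.2
  refine ⟨⟨fun a b => (z₁ a).trans (z₁ b).symm⟩, ⟨fun a b => (z₂ a).trans (z₂ b).symm⟩,
    ⟨fun a b => ?_⟩⟩
  obtain ⟨a', rfl⟩ := s₁ a
  obtain ⟨b', rfl⟩ := s₁ b
  rw [z₁ a', z₁ b']

/-- A torsion glued module with `dim H⁰ = 0` is zero. -/
theorem subsingleton_of_gh0_eq_zero (T : GluedModule 𝔹) [Module.Finite κ T.N₁]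
    [Module.Finite κ T.N₂] (h : gh0 T = 0) :
    Subsingleton T.N₁ ∧ Subsingleton T.N₂ ∧ Subsingleton T.N₁₂ := by
  apply subsingleton_of_H0_eq_bot T
  have hfin : Module.Finite κ T.H0 := (finCoh_of_finite T).finite_H0
  rw [gh0_eq] at h
  exact (Submodule.finrank_eq_zero (R := κ)).mp h

end Glued

end Fermat.Agent.S25.Lib.Euler
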