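/-
S25 (Jacobian), package A3 piece COKER (helper1451).  On Core + A1/Basic (helper7630, verbatim)
+ Euler1451.  No sorry.

* `cokerG φ`: the cokernel of a morphism `φ : Hom N' N` of glued modules, as a glued module;
  `cokerProj φ : Hom N (cokerG φ)`;
* `injective₁₂_of_injective₁`: injectivity on the overlap follows from chart 1;
* `gluedSES_of_injective`: over a field, an injective morphism gives a `GluedSES N' N (cokerG φ)`;
* consequences for torsion cokernels (`FinCoh` transfer, Euler characteristic).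
-/
import Fermat.Agent.S25.A1.Basic
import Fermat.Agent.S25.Lib.Euler.Basic

set_option autoImplicit false

universe u

namespace Fermat.Agent.S25.Lib.Euler

open Function

section Coker

variable {R : Type u} [CommRing R] {𝔹 : TwoChart R}

/-- `ι₁` as a semilinear map over `r₁`. -/
def ι₁ₛ (N : GluedModule 𝔹) : N.N₁ →ₛₗ[𝔹.r₁.toRingHom] N.N₁₂ where
  toFun := N.ι₁
  map_add' := N.ι₁.map_add
  map_smul' := N.ι₁_smul

/-- `ι₂` as a semilinear map over `r₂`. -/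
def ι₂ₛ (N : GluedModule 𝔹) : N.N₂ →ₛₗ[𝔹.r₂.toRingHom] N.N₁₂ where
  toFun := N.ι₂
  map_add' := N.ι₂.map_add
  map_smul' := N.ι₂_smul

@[simp] theorem ι₁ₛ_apply (N : GluedModule 𝔹) (n : N.N₁) : ι₁ₛ N n = N.ι₁ n := rfl

@[simp] theorem ι₂ₛ_apply (N : GluedModule 𝔹) (n : N.N₂) : ι₂ₛ N n = N.ι₂ n := rfl

variable {N' N : GluedModule 𝔹}

theorem range_le_comap₁ (φ : GluedModule.Hom N' N) :
    LinearMap.range φ.φ₁ ≤ Submodule.comap (ι₁ₛ N) (LinearMap.range φ.φ₁₂) := by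
  rintro _ ⟨n', rfl⟩
  exact ⟨N'.ι₁ n', φ.comm₁ n'⟩

theorem range_le_comap₂ (φ : GluedModule.Hom N' N) :
    LinearMap.range φ.φ₂ ≤ Submodule.comap (ι₂ₛ N) (LinearMap.range φ.φ₁₂) := by
  rintro _ ⟨n', rfl⟩
  exact ⟨N'.ι₂ n', φ.comm₂ n'⟩

/-- The restriction map of the cokernel on chart 1. -/
def cokerι₁ (φ : GluedModule.Hom N' N) :
    (N.N₁ ⧸ LinearMap.range φ.φ₁) →ₗ[R] (N.N₁₂ ⧸ LinearMap.range φ.φ₁₂) where
  toFun := Submodule.mapQ _ _ (ι₁ₛ N) (range_le_comap₁ φ)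
  map_add' := map_add _
  map_smul' := by
    intro c x
    obtain ⟨n, rfl⟩ := Submodule.Quotient.mk_surjective _ x
    rw [← Submodule.Quotient.mk_smul, Submodule.mapQ_apply, Submodule.mapQ_apply, ι₁ₛ_apply,
      ι₁ₛ_apply, map_smul]
    rfl

/-- The restriction map of the cokernel on chart 2. -/
def cokerι₂ (φ : GluedModule.Hom N' N) :
    (N.N₂ ⧸ LinearMap.range φ.φ₂) →ₗ[R] (N.N₁₂ ⧸ LinearMap.range φ.φ₁₂) where
  toFun := Submodule.mapQ _ _ (ι₂ₛ N) (range_le_comap₂ φ)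
  map_add' := map_add _
  map_smul' := by
    intro c x
    obtain ⟨n, rfl⟩ := Submodule.Quotient.mk_surjective _ x
    rw [← Submodule.Quotient.mk_smul, Submodule.mapQ_apply, Submodule.mapQ_apply, ι₂ₛ_apply,
      ι₂ₛ_apply, map_smul]
    rfl

@[simp] theorem cokerι₁_mk (φ : GluedModule.Hom N' N) (n : N.N₁) :
    cokerι₁ φ (Submodule.Quotient.mk n) = Submodule.Quotient.mk (N.ι₁ n) := rfl

@[simp] theorem cokerι₂_mk (φ : GluedModule.Hom N' N) (n : N.N₂) :
    cokerι₂ φ (Submodule.Quotient.mk n) = Submodule.Quotient.mk (N.ι₂ n) := rfl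

/-- The cokernel of a morphism of glued modules. -/
def cokerG (φ : GluedModule.Hom N' N) : GluedModule 𝔹 where
  N₁ := N.N₁ ⧸ LinearMap.range φ.φ₁
  N₂ := N.N₂ ⧸ LinearMap.range φ.φ₂
  N₁₂ := N.N₁₂ ⧸ LinearMap.range φ.φ₁₂
  ι₁ := cokerι₁ φ
  ι₂ := cokerι₂ φ
  ι₁_smul := by
    intro b x
    obtain ⟨n, rfl⟩ := Submodule.Quotient.mk_surjective _ x
    rw [← Submodule.Quotient.mk_smul, cokerι₁_mk, cokerι₁_mk, N.ι₁_smul,
      Submodule.Quotient.mk_smul]
  ι₂_smul := by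
    intro b x
    obtain ⟨n, rfl⟩ := Submodule.Quotient.mk_surjective _ x
    rw [← Submodule.Quotient.mk_smul, cokerι₂_mk, cokerι₂_mk, N.ι₂_smul,
      Submodule.Quotient.mk_smul]
  surj₁ := by
    intro y
    obtain ⟨y₀, rfl⟩ := Submodule.Quotient.mk_surjective _ y
    obtain ⟨n, m, rfl⟩ := N.surj₁ y₀
    exact ⟨Submodule.Quotient.mk n, m, by rw [cokerι₁_mk, Submodule.Quotient.mk_smul]⟩
  ker₁ := by
    intro x hx
    obtain ⟨n, rfl⟩ := Submodule.Quotient.mk_surjective _ x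
    rw [cokerι₁_mk, Submodule.Quotient.mk_eq_zero] at hx
    obtain ⟨y, hy⟩ := hx
    obtain ⟨n', j, rfl⟩ := N'.surj₁ y
    rw [map_smul, φ.comm₁] at hy
    have h1 : N.ι₁ (𝔹.f ^ j • n - φ.φ₁ n') = 0 := by
      rw [map_sub, N.ι₁_smul, ← hy, ← mul_smul, map_pow, ← mul_pow, 𝔹.fg, one_pow, one_smul,
        sub_self]
    obtain ⟨i, hi⟩ := N.ker₁ _ h1
    refine ⟨i + j, ?_⟩
    rw [← Submodule.Quotient.mk_smul, Submodule.Quotient.mk_eq_zero]
    refine ⟨𝔹.f ^ i • n', ?_⟩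
    rw [smul_sub, sub_eq_zero] at hi
    rw [map_smul, ← hi, ← mul_smul, ← pow_add]
  surj₂ := by
    intro y
    obtain ⟨y₀, rfl⟩ := Submodule.Quotient.mk_surjective _ y
    obtain ⟨n, m, rfl⟩ := N.surj₂ y₀
    exact ⟨Submodule.Quotient.mk n, m, by rw [cokerι₂_mk, Submodule.Quotient.mk_smul]⟩
  ker₂ := by
    intro x hx
    obtain ⟨n, rfl⟩ := Submodule.Quotient.mk_surjective _ x
    rw [cokerι₂_mk, Submodule.Quotient.mk_eq_zero] at hx
    obtain ⟨y, hy⟩ := hx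
    obtain ⟨n', j, rfl⟩ := N'.surj₂ y
    rw [map_smul, φ.comm₂] at hy
    have h1 : N.ι₂ (𝔹.g ^ j • n - φ.φ₂ n') = 0 := by
      rw [map_sub, N.ι₂_smul, ← hy, ← mul_smul, map_pow, ← mul_pow, 𝔹.gf, one_pow, one_smul,
        sub_self]
    obtain ⟨i, hi⟩ := N.ker₂ _ h1
    refine ⟨i + j, ?_⟩
    rw [← Submodule.Quotient.mk_smul, Submodule.Quotient.mk_eq_zero]
    refine ⟨𝔹.g ^ i • n', ?_⟩
    rw [smul_sub, sub_eq_zero] at hi
    rw [map_smul, ← hi, ← mul_smul, ← pow_add]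

/-- The projection onto the cokernel. -/
def cokerProj (φ : GluedModule.Hom N' N) : GluedModule.Hom N (cokerG φ) where
  φ₁ := (LinearMap.range φ.φ₁).mkQ
  φ₂ := (LinearMap.range φ.φ₂).mkQ
  φ₁₂ := (LinearMap.range φ.φ₁₂).mkQ
  comm₁ _ := rfl
  comm₂ _ := rfl

/-- Injectivity on the overlap follows from injectivity on chart 1. -/
theorem injective₁₂_of_injective₁ (φ : GluedModule.Hom N' N) (h : Injective φ.φ₁) :
    Injective φ.φ₁₂ := by
  rw [injective_iff_map_eq_zero]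
  intro y hy
  obtain ⟨n', m, rfl⟩ := N'.surj₁ y
  rw [map_smul, φ.comm₁] at hy
  have h1 : N.ι₁ (φ.φ₁ n') = 0 := by
    have := congrArg (fun z => 𝔹.r₁ 𝔹.f ^ m • z) hy
    simpa only [← mul_smul, ← mul_pow, 𝔹.fg, one_pow, one_smul, smul_zero] using this
  obtain ⟨i, hi⟩ := N.ker₁ _ h1
  rw [← map_smul] at hi
  have h2 : 𝔹.f ^ i • n' = 0 := h (by rw [hi, map_zero])
  have h3 : N'.ι₁ n' = 0 := by
    have := congrArg N'.ι₁ h2
    rw [N'.ι₁_smul, map_zero, map_pow] at this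
    have := congrArg (fun z => 𝔹.r₂ 𝔹.g ^ i • z) this
    simpa only [← mul_smul, ← mul_pow, 𝔹.gf, one_pow, one_smul, smul_zero] using this
  rw [h3, smul_zero]

end Coker

section Field

variable {κ : Type u} [Field κ] {𝔹 : TwoChart κ} {N' N : GluedModule 𝔹}

/-- Over a field: an injective morphism of glued modules and its cokernel form a short exact
sequence. -/
def gluedSES_of_injective (φ : GluedModule.Hom N' N) (h₁ : Injective φ.φ₁)
    (h₂ : Injective φ.φ₂) : GluedSES N' N (cokerG φ) where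
  φ₁ := φ.φ₁.restrictScalars κ
  φ₂ := φ.φ₂.restrictScalars κ
  φ₁₂ := φ.φ₁₂.restrictScalars κ
  ψ₁ := (LinearMap.range φ.φ₁).mkQ.restrictScalars κ
  ψ₂ := (LinearMap.range φ.φ₂).mkQ.restrictScalars κ
  ψ₁₂ := (LinearMap.range φ.φ₁₂).mkQ.restrictScalars κ
  inj₁ := h₁
  inj₂ := h₂
  inj₁₂ := injective₁₂_of_injective₁ φ h₁
  ex₁ := by
    intro x
    change (Submodule.Quotient.mk x : N.N₁ ⧸ LinearMap.range φ.φ₁) = 0 ↔ _
    rw [Submodule.Quotient.mk_eq_zero]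
    rfl
  ex₂ := by
    intro x
    change (Submodule.Quotient.mk x : N.N₂ ⧸ LinearMap.range φ.φ₂) = 0 ↔ _
    rw [Submodule.Quotient.mk_eq_zero]
    rfl
  ex₁₂ := by
    intro x
    change (Submodule.Quotient.mk x : N.N₁₂ ⧸ LinearMap.range φ.φ₁₂) = 0 ↔ _
    rw [Submodule.Quotient.mk_eq_zero]
    rfl
  surj₁ := Submodule.Quotient.mk_surjective _
  surj₂ := Submodule.Quotient.mk_surjective _
  surj₁₂ := Submodule.Quotient.mk_surjective _
  φ_comm₁ := φ.comm₁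
  φ_comm₂ := φ.comm₂
  ψ_comm₁ _ := rfl
  ψ_comm₂ _ := rfl

instance finite_cokerG₁ (φ : GluedModule.Hom N' N)
    [h : Module.Finite κ (N.N₁ ⧸ LinearMap.range φ.φ₁)] : Module.Finite κ (cokerG φ).N₁ := h

instance finite_cokerG₂ (φ : GluedModule.Hom N' N)
    [h : Module.Finite κ (N.N₂ ⧸ LinearMap.range φ.φ₂)] : Module.Finite κ (cokerG φ).N₂ := h

/-- An injective morphism with finite-dimensional chart cokernels: `FinCoh` transfers up. -/
theorem finCoh_of_injective_of_finite (φ : GluedModule.Hom N' N) (h₁ : Injective φ.φ₁)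
    (h₂ : Injective φ.φ₂) [Module.Finite κ (N.N₁ ⧸ LinearMap.range φ.φ₁)]
    [Module.Finite κ (N.N₂ ⧸ LinearMap.range φ.φ₂)] (h : FinCoh N') : FinCoh N :=
  (gluedSES_of_injective φ h₁ h₂).finCoh_mid h
    (finCoh_of_finite (T := cokerG φ))

/-- An injective morphism with finite-dimensional chart cokernels: `FinCoh` transfers down. -/
theorem finCoh_of_injective_of_finite' (φ : GluedModule.Hom N' N) (h₁ : Injective φ.φ₁)
    (h₂ : Injective φ.φ₂) [Module.Finite κ (N.N₁ ⧸ LinearMap.range φ.φ₁)]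
    [Module.Finite κ (N.N₂ ⧸ LinearMap.range φ.φ₂)] (h : FinCoh N) : FinCoh N' :=
  (gluedSES_of_injective φ h₁ h₂).finCoh_left h
    (finCoh_of_finite (T := cokerG φ))

/-- Euler characteristic of an injective morphism with finite-dimensional chart cokernels. -/
theorem gchi_of_injective_of_finite (φ : GluedModule.Hom N' N) (h₁ : Injective φ.φ₁)
    (h₂ : Injective φ.φ₂) [Module.Finite κ (N.N₁ ⧸ LinearMap.range φ.φ₁)]
    [Module.Finite κ (N.N₂ ⧸ LinearMap.range φ.φ₂)] (h : FinCoh N') :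
    gchi N = gchi N' + (gh0 (cokerG φ) : ℤ) := by
  have hT : FinCoh (cokerG φ) := finCoh_of_finite (T := cokerG φ)
  have h1 := (gluedSES_of_injective φ h₁ h₂).gchi_eq h hT
  have h2 : gh1 (cokerG φ) = 0 := gh1_of_finite (T := cokerG φ)
  rw [h1, gchi_eq (cokerG φ), h2]
  simp

/-- If moreover the Euler characteristics agree, the morphism is bijective on both charts. -/
theorem surjective_of_gchi_eq (φ : GluedModule.Hom N' N) (h₁ : Injective φ.φ₁)
    (h₂ : Injective φ.φ₂) [Module.Finite κ (N.N₁ ⧸ LinearMap.range φ.φ₁)]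
    [Module.Finite κ (N.N₂ ⧸ LinearMap.range φ.φ₂)] (h : FinCoh N') (hχ : gchi N = gchi N') :
    Surjective φ.φ₁ ∧ Surjective φ.φ₂ ∧ Surjective φ.φ₁₂ := by
  have h1 := gchi_of_injective_of_finite φ h₁ h₂ h
  have h0 : gh0 (cokerG φ) = 0 := by
    have : (gh0 (cokerG φ) : ℤ) = 0 := by linarith
    exact_mod_cast this
  obtain ⟨s₁, s₂, s₁₂⟩ := subsingleton_of_gh0_eq_zero (cokerG φ) h0
  refine ⟨?_, ?_, ?_⟩
  · rw [← LinearMap.range_eq_top]
    exact Submodule.Quotient.subsingleton_iff.mp s₁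
  · rw [← LinearMap.range_eq_top]
    exact Submodule.Quotient.subsingleton_iff.mp s₂
  · rw [← LinearMap.range_eq_top]
    exact Submodule.Quotient.subsingleton_iff.mp s₁₂

/-- A bijective morphism is an isomorphism. -/
noncomputable def isoOfBijective (φ : GluedModule.Hom N' N) (h₁ : Bijective φ.φ₁)
    (h₂ : Bijective φ.φ₂) (h₁₂ : Bijective φ.φ₁₂) : GluedModule.Iso N' N where
  e₁ := LinearEquiv.ofBijective φ.φ₁ h₁
  e₂ := LinearEquiv.ofBijective φ.φ₂ h₂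
  e₁₂ := LinearEquiv.ofBijective φ.φ₁₂ h₁₂
  comm₁ := φ.comm₁
  comm₂ := φ.comm₂

end Field

end Fermat.Agent.S25.Lib.Euler
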