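/-
S25 (Jacobian), package A3 piece TENSORDIM (helper1451).  Mathlib-only (+ InvQuot1451), no sorry.

Tensoring a finite-dimensional module with an invertible module does not change the dimension:
`finrank_tensor_invertible : dim_κ (M ⊗[B] T) = dim_κ T` for `M` invertible over the `κ`-algebra
`B` and `T` a `B`-module that is finite-dimensional over `κ`.
-/
import Fermat.Agent.S25.Lib.Euler.InvQuot

set_option autoImplicit false

namespace Fermat.Agent.S25.Lib.Euler

open TensorProduct

section TensorDim

variable {κ : Type*} [Field κ] {B : Type*} [CommRing B] [Algebra κ B]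

/-- `B`-linear equivalences preserve `κ`-dimension. -/
theorem finrank_eq_of_linearEquiv {X Y : Type*} [AddCommMonoid X] [Module B X] [Module κ X]
    [IsScalarTower κ B X] [AddCommMonoid Y] [Module B Y] [Module κ Y] [IsScalarTower κ B Y]
    (e : X ≃ₗ[B] Y) : Module.finrank κ X = Module.finrank κ Y :=
  (e.restrictScalars κ).finrank_eq

/-- `B`-linear equivalences preserve finite-dimensionality over `κ`. -/
theorem finite_of_linearEquiv {X Y : Type*} [AddCommMonoid X] [Module B X] [Module κ X]
    [IsScalarTower κ B X] [AddCommMonoid Y] [Module B Y] [Module κ Y] [IsScalarTower κ B Y]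
    (e : X ≃ₗ[B] Y) [Module.Finite κ X] : Module.Finite κ Y :=
  Module.Finite.equiv (e.restrictScalars κ)

/-- The quotient of `B` by the annihilator of a finite-dimensional module is
finite-dimensional. -/
theorem finite_quotient_annihilator (T : Type*) [AddCommGroup T] [Module B T] [Module κ T] [IsScalarTower κ B T]
    [Module.Finite κ T] :
    Module.Finite κ (B ⧸ Module.annihilator B T) := by
  let φ : B →ₗ[κ] Module.End κ T :=
    { toFun := fun b =>
        { toFun := fun t => b • t
          map_add' := smul_add b
          map_smul' := fun c t => smul_comm b c t }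
      map_add' := fun b b' => by
        ext t
        simp [add_smul]
      map_smul' := fun c b => by
        ext t
        simp [smul_assoc] }
  have hker : LinearMap.ker φ ≤ (Module.annihilator B T).restrictScalars κ := by
    intro b hb
    rw [Submodule.restrictScalars_mem, Module.mem_annihilator]
    intro t
    exact LinearMap.congr_fun hb t
  have hle : (Module.annihilator B T).restrictScalars κ ≤ LinearMap.ker φ := by
    intro b hb
    rw [Submodule.restrictScalars_mem, Module.mem_annihilator] at hb
    rw [LinearMap.mem_ker]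
    ext t
    exact hb t
  have hinj : Function.Injective
      (((Module.annihilator B T).restrictScalars κ).liftQ φ hle) := by
    rw [← LinearMap.ker_eq_bot]
    exact Submodule.ker_liftQ_eq_bot _ _ _ hker
  have hfin : Module.Finite κ (B ⧸ (Module.annihilator B T).restrictScalars κ) :=
    Module.Finite.of_injective _ hinj
  exact Module.Finite.equiv
    (Submodule.Quotient.restrictScalarsEquiv κ (Module.annihilator B T))

/-- For an invertible module `M` and a finite-dimensional module `T` there is `m₀ ∈ M` with
`t ↦ m₀ ⊗ t` surjective. -/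
theorem exists_tmul_surjective (κ : Type*) [Field κ] {B : Type*} [CommRing B] [Algebra κ B]
    (T : Type*) [AddCommGroup T] [Module B T] [Module κ T] [IsScalarTower κ B T]
    [Module.Finite κ T]
    (M : Type*) [AddCommGroup M] [Module B M] [Module.Invertible B M] :
    ∃ m₀ : M, Function.Surjective (TensorProduct.mk B M T m₀) := by
  have hfin : Module.Finite κ (B ⧸ Module.annihilator B T) := finite_quotient_annihilator T
  have : IsArtinianRing (B ⧸ Module.annihilator B T) :=
    IsArtinianRing.of_finite κ (B ⧸ Module.annihilator B T)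
  obtain ⟨e⟩ := nonempty_quot_smul_top_equiv (N := M) (Module.annihilator B T)
  obtain ⟨m₀, hm₀⟩ := Submodule.Quotient.mk_surjective _ (e.symm 1)
  refine ⟨m₀, ?_⟩
  have key : ∀ m : M, ∃ b : B,
      m - b • m₀ ∈ Module.annihilator B T • (⊤ : Submodule B M) := by
    intro m
    obtain ⟨b, hb⟩ := Ideal.Quotient.mk_surjective (e (Submodule.Quotient.mk m))
    refine ⟨b, ?_⟩
    rw [← Submodule.Quotient.mk_eq_zero, Submodule.Quotient.mk_sub, Submodule.Quotient.mk_smul,
      hm₀, sub_eq_zero]
    apply e.injective
    rw [map_smul, e.apply_symm_apply, ← hb]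
    rw [Algebra.smul_def, mul_one]
    rfl
  have hzero : ∀ z ∈ Module.annihilator B T • (⊤ : Submodule B M), ∀ t : T,
      z ⊗ₜ[B] t = 0 := by
    intro z hz t
    refine Submodule.smul_induction_on hz (fun a ha m _ => ?_) (fun x y hx hy => ?_)
    · rw [TensorProduct.smul_tmul, Module.mem_annihilator.mp ha t, tmul_zero]
    · rw [add_tmul, hx, hy, add_zero]
  intro y
  induction y using TensorProduct.induction_on with
  | zero => exact ⟨0, by simp⟩
  | tmul m t =>
    obtain ⟨b, hb⟩ := key m
    refine ⟨b • t, ?_⟩
    have h1 := hzero _ hb t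
    rw [sub_tmul, sub_eq_zero] at h1
    rw [TensorProduct.mk_apply, h1, TensorProduct.smul_tmul]
  | add x y hx hy =>
    obtain ⟨a, rfl⟩ := hx
    obtain ⟨b, rfl⟩ := hy
    exact ⟨a + b, map_add _ _ _⟩

/-- `M ⊗ T` is finite-dimensional, of dimension at most `dim T`. -/
theorem finite_tensor_invertible_aux (T : Type*) [AddCommGroup T] [Module B T] [Module κ T] [IsScalarTower κ B T]
    [Module.Finite κ T]
    (M : Type*) [AddCommGroup M] [Module B M] [Module.Invertible B M]
    [Module κ (M ⊗[B] T)] [IsScalarTower κ B (M ⊗[B] T)] :
    Module.Finite κ (M ⊗[B] T) ∧ Module.finrank κ (M ⊗[B] T) ≤ Module.finrank κ T := by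
  obtain ⟨m₀, hm₀⟩ := exists_tmul_surjective κ (B := B) T M
  have hsurj : Function.Surjective ((TensorProduct.mk B M T m₀).restrictScalars κ) := hm₀
  have hfin : Module.Finite κ (M ⊗[B] T) := Module.Finite.of_surjective _ hsurj
  refine ⟨hfin, ?_⟩
  have h1 := LinearMap.finrank_range_le ((TensorProduct.mk B M T m₀).restrictScalars κ)
  rw [LinearMap.range_eq_top.mpr hsurj, finrank_top] at h1
  exact h1

/-- Tensoring with an invertible module preserves finite-dimensionality. -/
theorem finite_tensor_invertible (T : Type*) [AddCommGroup T] [Module B T] [Module κ T] [IsScalarTower κ B T]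
    [Module.Finite κ T]
    (M : Type*) [AddCommGroup M] [Module B M] [Module.Invertible B M]
    [Module κ (M ⊗[B] T)] [IsScalarTower κ B (M ⊗[B] T)] :
    Module.Finite κ (M ⊗[B] T) :=
  (finite_tensor_invertible_aux (κ := κ) (B := B) T M).1

/-- Tensoring with an invertible module preserves the dimension. -/
theorem finrank_tensor_invertible (T : Type*) [AddCommGroup T] [Module B T] [Module κ T] [IsScalarTower κ B T]
    [Module.Finite κ T]
    (M : Type*) [AddCommGroup M] [Module B M] [Module.Invertible B M]
    [Module κ (M ⊗[B] T)] [IsScalarTower κ B (M ⊗[B] T)] :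
    Module.finrank κ (M ⊗[B] T) = Module.finrank κ T := by
  obtain ⟨hfin, hle⟩ := finite_tensor_invertible_aux (κ := κ) (B := B) T M
  apply le_antisymm hle
  have h2 := (finite_tensor_invertible_aux (κ := κ) (B := B) (M ⊗[B] T) (Module.Dual B M)).2
  let e : Module.Dual B M ⊗[B] (M ⊗[B] T) ≃ₗ[B] T :=
    (TensorProduct.assoc B (Module.Dual B M) M T).symm ≪≫ₗ
      (Module.Invertible.linearEquiv B M).rTensor T ≪≫ₗ TensorProduct.lid B T
  rw [← finrank_eq_of_linearEquiv (κ := κ) e]
  exact h2

end TensorDim

end Fermat.Agent.S25.Lib.Euler
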